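/-
Project S36 (Carayol), cell [DESC], part (N1''): THE NORMS ALONG THE TWO DEGENERACY MAPS COMMUTE
WITH THE EXTENSION OF THE CONSTANT FIELD.

`L0 ⊆ L` fields of characteristic zero, `F₀ ⊆ F₁`-type data: `γ₀ : F_{L0} → E_{L0}`,
`γ₁ : F_L → E_L` (`F_K = laurentBaseChange K F₀`, `E_K = laurentBaseChange K F₁`) compatible with the
comparison maps `dsc_bcHom`, of the same finite degree.  Then
`Norm_{γ₁} (bc g) = bc (Norm_{γ₀} g)`   (`s36d_norm_bc_of_deg`).

Instances: the two degeneracy maps `heckeAlphaBar`, `heckeBetaBar` of level `(N q, N)`: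
* `s36d_norm_bc_alpha_of_deg`, `s36d_norm_bc_beta_of_deg` : generic in the degree hypothesis
  (any `N`, `q`);
* `s36d_finrankAlong_alpha`, `s36d_finrankAlong_beta` : both degrees are `q` for a prime `q ∣ N`,
  over every constant field `L ⊆ Q̄` (helper26's S36/PEquiv2/Deg.lean);
* `s36d_norm_bc_alpha`, `s36d_norm_bc_beta` : the case `q ∣ N`.
Prefix `s36d_`.  Owner: helper28.
-/
import Mathlib
import Fermat.Agent.JT3.Descent.FieldOfDef
import Fermat.Agent.S35.PEquiv.NormAlong
import Fermat.Agent.S36.PEquiv2.Deg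

set_option autoImplicit false
set_option linter.unusedSectionVars false
set_option linter.unusedVariables false
set_option linter.style.haveILetI false

noncomputable section

namespace Fermat.Agent.S36

open ModularCurve AlgebraicCurve Module IntermediateField
open Fermat.Agent.S24 Fermat.Agent.JT3 Fermat.Agent.SS Fermat.Agent.S35

local notation "Qb" => AlgebraicClosure ℚ

section Abstract

variable {K0 K : Type*} [Field K0] [Field K]

/-- **base change of the norm** in a commutative square with equal degrees and generation (twin of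
`s35pe_normAlong_baseChange` with two different base fields). -/
theorem s36d_normAlong_baseChange {F E F' E' : Type*} [Field F] [Field E] [Field F'] [Field E']
    [Algebra K0 F] [Algebra K0 E] [Algebra K F'] [Algebra K E']
    (γ₀ : F →ₐ[K0] E) (γ₁ : F' →ₐ[K] E') (b₀ : F →+* F') (b₁ : E →+* E')
    (hcomm : ∀ x, b₁ (γ₀ x) = γ₁ (b₀ x))
    (hpos : 0 < finrankAlong K0 γ₀) (hdeg : finrankAlong K γ₁ = finrankAlong K0 γ₀)
    (hgen : ∀ S : Subfield E', (∀ x, γ₁ x ∈ S) → (∀ y, b₁ y ∈ S) → S = ⊤) (g : E) :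
    s35pe_normAlong γ₁ (b₁ g) = b₀ (s35pe_normAlong γ₀ g) := by
  letI i0 := algebraAlong γ₀
  letI i1 := algebraAlong γ₁
  haveI hf0 : FiniteDimensional F E := Module.finite_of_finrank_pos hpos
  haveI hf1 : FiniteDimensional F' E' := Module.finite_of_finrank_pos (by
    have : finrank F' E' = finrank F E := hdeg
    rw [this]; exact hpos)
  refine s35pe_norm_baseChange b₀ b₁ hcomm hdeg ?_ g
  -- generation
  have halg : Algebra.IsAlgebraic F' E' := Algebra.IsAlgebraic.of_finite F' E'
  set A : Subalgebra F' E' := Algebra.adjoin F' (Set.range b₁) with hA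
  set I : IntermediateField F' E' := subalgebraEquivIntermediateField A with hI
  have hIA : ∀ x, x ∈ I ↔ x ∈ A := fun x => by
    rw [hI, mem_subalgebraEquivIntermediateField]
  have h := hgen I.toSubfield (fun x => I.algebraMap_mem x)
    (fun y => (hIA _).mpr (Algebra.subset_adjoin ⟨y, rfl⟩))
  rw [eq_top_iff]
  intro x _
  have hx : x ∈ I.toSubfield := by rw [h]; trivial
  exact (hIA x).mp hx

/-- the norm along `γ` of a nonzero element is nonzero (finite degree) -/
theorem s36d_normAlong_ne_zero {F E : Type*} [Field F] [Field E] [Algebra K F] [Algebra K E]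
    (γ : F →ₐ[K] E) (hpos : 0 < finrankAlong K γ) {r : E} (hr : r ≠ 0) :
    s35pe_normAlong γ r ≠ 0 := by
  letI := algebraAlong γ
  haveI : FiniteDimensional F E := Module.finite_of_finrank_pos hpos
  rw [s35pe_normAlong_apply]
  exact Algebra.norm_ne_zero_iff.mpr hr

/-- the norm along `γ` of a constant is a constant -/
theorem s36d_normAlong_const {F E : Type*} [Field F] [Field E] [Algebra K F] [Algebra K E]
    (γ : F →ₐ[K] E) (c : K) :
    s35pe_normAlong γ (algebraMap K E c) = algebraMap K F (c ^ finrankAlong K γ) := by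
  letI := algebraAlong γ
  have h1 : algebraMap K E c = algebraMap F E (algebraMap K F c) := (γ.commutes c).symm
  rw [h1, s35pe_normAlong_apply, Algebra.norm_algebraMap, map_pow]
  rfl

end Abstract

section Generic

variable (L0 L : Type*) [Field L0] [Field L] [Algebra ℚ L0] [Algebra ℚ L] [Algebra L0 L]
  [IsScalarTower ℚ L0 L] (F₀ F₁ : IntermediateField ℚ (LaurentSeries ℚ))

/-- generation of `E_L` by `E_{L0}` and the constants -/
theorem s36d_gen (S : Subfield (laurentBaseChange L F₁))
    (hc : ∀ c : L, algebraMap L (laurentBaseChange L F₁) c ∈ S)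
    (hb : ∀ y, dsc_bcHom L0 L F₁ y ∈ S) : S = ⊤ := by
  rw [eq_top_iff]
  intro y _
  letI := dsc_bcAlgebra L0 L F₁
  have hy := dsc_bc_mem_closure L0 L F₁ y
  have hle : Subfield.closure
      (Set.range (algebraMap (laurentBaseChange L0 F₁) (laurentBaseChange L F₁)) ∪
        Set.range (algebraMap L (laurentBaseChange L F₁))) ≤ S := by
    rw [Subfield.closure_le]
    rintro z (⟨a, rfl⟩ | ⟨c, rfl⟩)
    · exact hb a
    · exact hc c
  exact hle hy

/-- **Base change of the norm along a map of level fields, generic form.** -/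
theorem s36d_norm_bc_of_deg
    (γ₀ : laurentBaseChange L0 F₀ →ₐ[L0] laurentBaseChange L0 F₁)
    (γ₁ : laurentBaseChange L F₀ →ₐ[L] laurentBaseChange L F₁)
    (hcomm : ∀ x, dsc_bcHom L0 L F₁ (γ₀ x) = γ₁ (dsc_bcHom L0 L F₀ x))
    (hpos : 0 < finrankAlong L0 γ₀) (hdeg : finrankAlong L γ₁ = finrankAlong L0 γ₀)
    (g : laurentBaseChange L0 F₁) :
    s35pe_normAlong γ₁ (dsc_bcHom L0 L F₁ g) = dsc_bcHom L0 L F₀ (s35pe_normAlong γ₀ g) :=
  s36d_normAlong_baseChange γ₀ γ₁ (dsc_bcHom L0 L F₀) (dsc_bcHom L0 L F₁) hcomm hpos hdeg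
    (fun S h1 h2 => s36d_gen L0 L F₁ S (fun c => by
      have := h1 (algebraMap L (laurentBaseChange L F₀) c)
      rwa [γ₁.commutes] at this) h2) g

end Generic

section Levels

variable (L0 L : Type*) [Field L0] [Field L] [Algebra ℚ L0] [Algebra ℚ L] [Algebra L0 L]
  [IsScalarTower ℚ L0 L] (N q : ℕ) [NeZero N] [NeZero q]

/-- the comparison maps commute with `α_q` -/
theorem s36d_bc_alpha (x : laurentBaseChange L0 (modularFunctionFieldFull N)) :
    dsc_bcHom L0 L (modularFunctionFieldFull (N * q)) (heckeAlphaBar L0 N q x) =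
      heckeAlphaBar L N q (dsc_bcHom L0 L (modularFunctionFieldFull N) x) := by
  apply Subtype.ext
  rw [dsc_bcHom_coe, coe_heckeAlphaBar, coe_heckeAlphaBar, dsc_bcHom_coe]

/-- the comparison maps commute with `β_q` -/
theorem s36d_bc_beta (x : laurentBaseChange L0 (modularFunctionFieldFull N)) :
    dsc_bcHom L0 L (modularFunctionFieldFull (N * q)) (heckeBetaBar L0 N q x) =
      heckeBetaBar L N q (dsc_bcHom L0 L (modularFunctionFieldFull N) x) := by
  apply Subtype.ext
  rw [dsc_bcHom_coe, coe_heckeBetaBar, coe_heckeBetaBar, dsc_bcHom_coe, dsc_cm, coeffMap_qExpand]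

/-- **(N1''), `α`, generic in the degree.** -/
theorem s36d_norm_bc_alpha_of_deg (hpos : 0 < finrankAlong L0 (heckeAlphaBar L0 N q))
    (hdeg : finrankAlong L (heckeAlphaBar L N q) = finrankAlong L0 (heckeAlphaBar L0 N q))
    (g : laurentBaseChange L0 (modularFunctionFieldFull (N * q))) :
    s35pe_normAlong (heckeAlphaBar L N q) (dsc_bcHom L0 L (modularFunctionFieldFull (N * q)) g) =
      dsc_bcHom L0 L (modularFunctionFieldFull N) (s35pe_normAlong (heckeAlphaBar L0 N q) g) :=
  s36d_norm_bc_of_deg L0 L _ _ _ _ (s36d_bc_alpha L0 L N q) hpos hdeg g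

/-- **(N1''), `β`, generic in the degree.** -/
theorem s36d_norm_bc_beta_of_deg (hpos : 0 < finrankAlong L0 (heckeBetaBar L0 N q))
    (hdeg : finrankAlong L (heckeBetaBar L N q) = finrankAlong L0 (heckeBetaBar L0 N q))
    (g : laurentBaseChange L0 (modularFunctionFieldFull (N * q))) :
    s35pe_normAlong (heckeBetaBar L N q) (dsc_bcHom L0 L (modularFunctionFieldFull (N * q)) g) =
      dsc_bcHom L0 L (modularFunctionFieldFull N) (s35pe_normAlong (heckeBetaBar L0 N q) g) :=
  s36d_norm_bc_of_deg L0 L _ _ _ _ (s36d_bc_beta L0 L N q) hpos hdeg g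

end Levels

section Degrees

variable (L : Type*) [Field L] [Algebra ℚ L] (N q : ℕ) [NeZero N] [NeZero q]

/-- `[F_{N q}(L) : F_N(L)] = q` along `α_q` for a prime `q ∣ N`. -/
theorem s36d_finrankAlong_alpha (hq : q.Prime) (hqN : q ∣ N) :
    finrankAlong L (heckeAlphaBar L N q) = q := by
  haveI : CharZero L := algebraRat.charZero L
  have h := s35pe_finrankAlong_inclusion (K := L)
    (F := laurentBaseChange L (modularFunctionFieldFull N))
    (F' := laurentBaseChange L (modularFunctionFieldFull (N * q)))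
    (by
      rw [← lg_F_eq_laurentBaseChange, ← lg_F_eq_laurentBaseChange]
      exact full_degeneracyC_le L (Dvd.intro q rfl))
  rw [heckeAlphaBar_eq_inclusion N q (by
      rw [← lg_F_eq_laurentBaseChange, ← lg_F_eq_laurentBaseChange]
      exact full_degeneracyC_le L (Dvd.intro q rfl)), h, ← lg_F_eq_laurentBaseChange, ← lg_F_eq_laurentBaseChange]
  exact s36pe_relfinrank_alpha_dvd L N q hq hqN

variable [Algebra L Qb]

/-- `[F_{N q}(L) : β_q F_N(L)] = q` along `β_q` for a prime `q ∣ N`. -/
theorem s36d_finrankAlong_beta (hq : q.Prime) (hqN : q ∣ N) :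
    finrankAlong L (heckeBetaBar L N q) = q := by
  haveI : CharZero L := algebraRat.charZero L
  have hmem : ∀ x ∈ laurentBaseChange L (modularFunctionFieldFull N),
      qExpandAlgHomC L q x ∈ laurentBaseChange L (modularFunctionFieldFull (N * q)) := by
    intro x hx
    exact (heckeBetaBar L N q ⟨x, hx⟩).2
  have h2 : heckeBetaBar L N q = s35pe_res (qExpandAlgHomC L q)
      (laurentBaseChange L (modularFunctionFieldFull N))
      (laurentBaseChange L (modularFunctionFieldFull (N * q))) hmem :=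
    AlgHom.ext fun _ => Subtype.ext rfl
  rw [h2, s35pe_finrankAlong_res, ← lg_F_eq_laurentBaseChange, ← lg_F_eq_laurentBaseChange]
  exact s36pe_relfinrank_beta_dvd L N q hq hqN

end Degrees

section Dvd

variable (L1 : Type*) [Field L1] [Algebra ℚ L1] [Algebra L1 Qb] [IsScalarTower ℚ L1 Qb]
  (N q : ℕ) [NeZero N] [NeZero q]

/-- **(N1'') for `α_q`, `q ∣ N`.** -/
theorem s36d_norm_bc_alpha (hq : q.Prime) (hqN : q ∣ N)
    (g : laurentBaseChange L1 (modularFunctionFieldFull (N * q))) :
    s35pe_normAlong (heckeAlphaBar Qb N q)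
        (dsc_bcHom L1 Qb (modularFunctionFieldFull (N * q)) g) =
      dsc_bcHom L1 Qb (modularFunctionFieldFull N)
        (s35pe_normAlong (heckeAlphaBar L1 N q) g) := by
  refine s36d_norm_bc_alpha_of_deg L1 Qb N q ?_ ?_ g
  · rw [s36d_finrankAlong_alpha L1 N q hq hqN]; exact hq.pos
  · rw [s36d_finrankAlong_alpha L1 N q hq hqN, s36d_finrankAlong_alpha Qb N q hq hqN]

/-- **(N1'') for `β_q`, `q ∣ N`.** -/
theorem s36d_norm_bc_beta (hq : q.Prime) (hqN : q ∣ N)
    (g : laurentBaseChange L1 (modularFunctionFieldFull (N * q))) :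
    s35pe_normAlong (heckeBetaBar Qb N q)
        (dsc_bcHom L1 Qb (modularFunctionFieldFull (N * q)) g) =
      dsc_bcHom L1 Qb (modularFunctionFieldFull N)
        (s35pe_normAlong (heckeBetaBar L1 N q) g) := by
  refine s36d_norm_bc_beta_of_deg L1 Qb N q ?_ ?_ g
  · rw [s36d_finrankAlong_beta L1 N q hq hqN]; exact hq.pos
  · rw [s36d_finrankAlong_beta L1 N q hq hqN, s36d_finrankAlong_beta Qb N q hq hqN]

end Dvd

end Fermat.Agent.S36
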