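/-
Project S36 (Carayol), cell [DESC]: THE UNRAMIFIED DESCENT for the Kummer seam of [INV-0]
(twin of SS/Descent/{Step,Generic}.lean and of helper22's [DESC-φ] with `φ` deleted).

Level pair `(N q, N)`, `q` prime, `q ∣ N`; `A` a valuation ring of `Q̄` over `q`.

* `s36d_CoreF N q A d` : THE CORE AT `F`-LEVEL over the unramified levels of `A`: there is a finite
      `I_A`-fixed set `T ⊆ Q̄` such that for every level `L1 ⊇ T` (`s35d_IsLevel A q L1`: a number
      field fixed by `I_A`, `A ∩ L1` a DVR with uniformiser `q`), `q ∤ m` with `ζ_m ∈ L1`, and every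
      `g1 ∈ L1(X₀(N q))ˣ` with all orders divisible by `m` and
      `Norm_α g1 = a · s^m`, `Norm_β g1 = a' · s'^m` (`a, a' ∈ L1`, `s, s' ∈ L1(X₀(N))`):
      `(bc g1)^d = c · r^m` in `Q̄(X₀(N q))`;
* `s36d_norm_descend`  : the norm hypothesis descends from `Q̄` to `L1` (norm base change
      `s36d_norm_bc_*` + helper22's root descent `ss2_dp_root_descent`);
* `s36d_keyBarAt_of_coreF` : `s36d_CoreF N q A d → s36k_KeyBarAt N q A d` (helper16's seam);
* `s36d_keyBar_of_coreF`, `s36d_inv0_of_coreF` : the packaged forms, down to helper26's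
      `s36pe_Inv0`.
Prefix `s36d_`.  Owner: helper28.
-/
import Mathlib
import Fermat.Agent.S36.Desc.NormBar
import Fermat.Agent.S36.Kum.Inv0
import Fermat.Agent.S35.DescU
import Fermat.Agent.SS2.DescPhi.Root

set_option autoImplicit false
set_option linter.unusedSectionVars false
set_option linter.unusedVariables false
set_option linter.style.haveILetI false
set_option synthInstance.maxHeartbeats 400000
set_option maxHeartbeats 1000000

noncomputable section

namespace Fermat.Agent.S36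

open ModularCurve AlgebraicCurve Module IntermediateField
open Fermat.Agent.S24 Fermat.Agent.JT3 Fermat.Agent.SS Fermat.Agent.S35 Fermat.Agent.SS2

local notation "Qb" => AlgebraicClosure ℚ
local notation "GQ" => (AlgebraicClosure ℚ ≃ₐ[ℚ] AlgebraicClosure ℚ)

section Norm

variable (L1 : Type) [Field L1] [Algebra ℚ L1] [Algebra L1 Qb] [IsScalarTower ℚ L1 Qb]
  (F₀ F₁ : IntermediateField ℚ (LaurentSeries ℚ))

/-- **the norm hypothesis descends**: if `f = c · r^m · bc(g1)` and `Norm f = c0 · h^m` over `Q̄`,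
then `Norm g1 = a · s^m` over `L1`. -/
theorem s36d_norm_descend {x : laurentBaseChange Qb F₀} (hx : rt_IsSepGen Qb x)
    (γ₀ : laurentBaseChange L1 F₀ →ₐ[L1] laurentBaseChange L1 F₁)
    (γ₁ : laurentBaseChange Qb F₀ →ₐ[Qb] laurentBaseChange Qb F₁)
    (hbc : ∀ g, s35pe_normAlong γ₁ (dsc_bcHom L1 Qb F₁ g) =
      dsc_bcHom L1 Qb F₀ (s35pe_normAlong γ₀ g))
    (hpos : 0 < finrankAlong Qb γ₁)
    {m : ℕ} (hm : m ≠ 0) (g1 : laurentBaseChange L1 F₁) (c : Qb) (r f : laurentBaseChange Qb F₁)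
    (hc : c ≠ 0) (hr : r ≠ 0)
    (hf : f = algebraMap Qb (laurentBaseChange Qb F₁) c * r ^ m * dsc_bcHom L1 Qb F₁ g1)
    (hN : ∃ (c0 : Qb) (h : laurentBaseChange Qb F₀),
      s35pe_normAlong γ₁ f = algebraMap Qb (laurentBaseChange Qb F₀) c0 * h ^ m) :
    ∃ (a : L1) (s : laurentBaseChange L1 F₀),
      s35pe_normAlong γ₀ g1 = algebraMap L1 (laurentBaseChange L1 F₀) a * s ^ m := by
  obtain ⟨c0, h, hh⟩ := hN
  -- the norm of `r` is nonzero
  have hNr : s35pe_normAlong γ₁ r ≠ 0 := s36d_normAlong_ne_zero γ₁ hpos hr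
  set c' : Qb := c ^ finrankAlong Qb γ₁ with hc'
  have hc'0 : c' ≠ 0 := pow_ne_zero _ hc
  have key : s35pe_normAlong γ₁ f =
      algebraMap Qb (laurentBaseChange Qb F₀) c' * (s35pe_normAlong γ₁ r) ^ m *
        dsc_bcHom L1 Qb F₀ (s35pe_normAlong γ₀ g1) := by
    rw [hf, map_mul, map_mul, map_pow, s36d_normAlong_const, hbc]
  have hne : algebraMap Qb (laurentBaseChange Qb F₀) c' * (s35pe_normAlong γ₁ r) ^ m ≠ 0 :=
    mul_ne_zero (by rwa [Ne, map_eq_zero]) (pow_ne_zero _ hNr)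
  have hroot : dsc_bcHom L1 Qb F₀ (s35pe_normAlong γ₀ g1) =
      algebraMap Qb (laurentBaseChange Qb F₀) (c0 / c') * (h / s35pe_normAlong γ₁ r) ^ m := by
    apply mul_left_cancel₀ hne
    rw [← key, hh, map_div₀, div_pow]
    have h1 : algebraMap Qb (laurentBaseChange Qb F₀) c' ≠ 0 := by rwa [Ne, map_eq_zero]
    have h2 : (s35pe_normAlong γ₁ r) ^ m ≠ 0 := pow_ne_zero _ hNr
    field_simp
  exact ss2_dp_root_descent L1 hx hm _ _ _ hroot

end Norm

section Step

variable (N q : ℕ) [NeZero N] [NeZero q]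

/-- **The core at `F`-level over the unramified levels of `A`.** -/
def s36d_CoreF (A : ValuationSubring Qb) (d : ℕ) : Prop :=
  ∃ T : Finset Qb, (∀ t ∈ T, ∀ s ∈ A.inertiaSubgroupIn ℚ, s t = t) ∧
    ∀ L1 : IntermediateField ℚ Qb, s35d_IsLevel A q L1 → (↑T : Set Qb) ⊆ L1 →
      ∀ m : ℕ, ¬ q ∣ m → (∃ ζ : L1, IsPrimitiveRoot ζ m) →
        ∀ g1 : laurentBaseChange L1 (modularFunctionFieldFull (N * q)), g1 ≠ 0 →
          (∀ w : Place L1 (laurentBaseChange L1 (modularFunctionFieldFull (N * q))),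
            (m : ℤ) ∣ w.ord g1) →
          (∃ (a : L1) (s : laurentBaseChange L1 (modularFunctionFieldFull N)),
            s35pe_normAlong (heckeAlphaBar L1 N q) g1 =
              algebraMap L1 (laurentBaseChange L1 (modularFunctionFieldFull N)) a * s ^ m) →
          (∃ (a : L1) (s : laurentBaseChange L1 (modularFunctionFieldFull N)),
            s35pe_normAlong (heckeBetaBar L1 N q) g1 =
              algebraMap L1 (laurentBaseChange L1 (modularFunctionFieldFull N)) a * s ^ m) →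
          ∃ (c : Qb) (r : modularFunctionFieldBar (N * q)), r ≠ 0 ∧
            (dsc_bcHom L1 Qb (modularFunctionFieldFull (N * q)) g1) ^ d =
              algebraMap Qb (modularFunctionFieldBar (N * q)) c * r ^ m

/-- **[DESC]**: the core over the unramified levels gives the Kummer seam of [INV-0]. -/
theorem s36d_keyBarAt_of_coreF (hq : q.Prime) (hqN : q ∣ N) {A : ValuationSubring Qb}
    (hA : A.LiesOverPrime q) {d : ℕ} (H : s36d_CoreF N q A d) : s36k_KeyBarAt N q A d := by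
  haveI : Fact q.Prime := ⟨hq⟩
  intro m hqm f hf hord hfix hα hβ
  obtain ⟨T, hT, Hc⟩ := H
  have hm : m ≠ 0 := by
    rintro rfl
    exact hqm (dvd_zero q)
  -- a primitive `m`-th root of unity (fixed by the inertia group, since `q ∤ m`)
  classical
  haveI : NeZero m := ⟨hm⟩
  obtain ⟨ζ0, hζ0⟩ : ∃ ζ : Qb, IsPrimitiveRoot ζ m :=
    HasEnoughRootsOfUnity.exists_primitiveRoot Qb m
  have hT' : ∀ t ∈ insert ζ0 T, ∀ s ∈ A.inertiaSubgroupIn ℚ, s t = t := by
    intro t ht s hs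
    rcases Finset.mem_insert.1 ht with rfl | ht
    · exact s35d_root_fixed A q hA hqm hζ0.pow_eq_one hs
    · exact hT t ht s hs
  -- the descent of `f`
  obtain ⟨L1, hL1, hTL1', g1, c, r, hg1, hc, hr, hfeq, hordg1⟩ :=
    s35d_descU (N * q) q A hA (insert ζ0 T) hT' hm hf hord (fun s hs => by
      obtain ⟨c, r, hr, h⟩ := hfix s hs
      refine ⟨c, r, ?_, hr, h⟩
      rintro rfl
      rw [map_zero, zero_mul, zero_mul] at h
      exact hf ((smul_eq_zero_iff_eq _).1 h))
  have hTL1 : (↑T : Set Qb) ⊆ L1 := fun t ht =>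
    hTL1' (Finset.mem_coe.2 (Finset.mem_insert_of_mem (Finset.mem_coe.1 ht)))
  have hζL1 : ζ0 ∈ L1 := hTL1' (Finset.mem_coe.2 (Finset.mem_insert_self ζ0 T))
  have hζ1 : ∃ ζ : L1, IsPrimitiveRoot ζ m :=
    ⟨⟨ζ0, hζL1⟩, IsPrimitiveRoot.of_map_of_injective (f := algebraMap L1 Qb)
      (show IsPrimitiveRoot (algebraMap L1 Qb ⟨ζ0, hζL1⟩) m from hζ0)
      (algebraMap L1 Qb).injective⟩
  -- the two norm hypotheses over `L1`
  have hαpos : 0 < finrankAlong Qb (heckeAlphaBar Qb N q) := by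
    rw [s36d_finrankAlong_alpha Qb N q hq hqN]; exact hq.pos
  have hβpos : 0 < finrankAlong Qb (heckeBetaBar Qb N q) := by
    rw [s36d_finrankAlong_beta Qb N q hq hqN]; exact hq.pos
  have hα1 := s36d_norm_descend L1 (modularFunctionFieldFull N) (modularFunctionFieldFull (N * q))
    (rt_isSepGen_jBar N) (heckeAlphaBar L1 N q) (heckeAlphaBar Qb N q)
    (s36d_norm_bc_alpha L1 N q hq hqN) hαpos hm g1 c r f hc hr hfeq (by
      obtain ⟨c0, h, -, hh⟩ := hα
      exact ⟨c0, h, hh⟩)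
  have hβ1 := s36d_norm_descend L1 (modularFunctionFieldFull N) (modularFunctionFieldFull (N * q))
    (rt_isSepGen_jBar N) (heckeBetaBar L1 N q) (heckeBetaBar Qb N q)
    (s36d_norm_bc_beta L1 N q hq hqN) hβpos hm g1 c r f hc hr hfeq (by
      obtain ⟨c0, h, -, hh⟩ := hβ
      exact ⟨c0, h, hh⟩)
  -- the core
  obtain ⟨c1, r1, hr1, hcore⟩ := Hc L1 hL1 hTL1 m hqm hζ1 g1 hg1 hordg1 hα1 hβ1
  refine ⟨c ^ d * c1, r ^ d * r1, mul_ne_zero (pow_ne_zero _ hr) hr1, ?_⟩
  rw [hfeq, mul_pow, mul_pow, hcore, map_mul, map_pow]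
  ring

/-- the packaged form -/
theorem s36d_keyBar_of_coreF (hq : q.Prime) (hqN : q ∣ N)
    (H : ∃ A : ValuationSubring Qb, A.LiesOverPrime q ∧ ∃ d : ℕ, d ≠ 0 ∧ s36d_CoreF N q A d) :
    s36k_KeyBar N q := by
  obtain ⟨A, hA, d, hd, Hd⟩ := H
  exact ⟨A, hA, d, hd, s36d_keyBarAt_of_coreF N q hq hqN hA Hd⟩

end Step

end Fermat.Agent.S36
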