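/-
Project S36 (Carayol), cell [DESC], the cover passage, GENERIC PART.

Ambient field `Ω / K`, two commuting `K`-algebra endomorphisms `e` (a degeneracy map) and `φ` (the
map to the rigidifying cover), intermediate fields `F₁, F₂` (level fields) and `E₁, E₂` (cover
fields) with `e(F₁) ⊆ F₂`, `e(E₁) ⊆ E₂`, `φ(F_i) ⊆ E_i`.

* `s36d_cover_norm`   : (N2) `Norm_{e|E} (φ g) = φ (Norm_{e|F} g)` if both degrees are `d > 0` and
                        `E₂` is generated by `e(E₁)` and `φ(F₂)`;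
* `s36d_norm_map_eq`  : the norm to the image subfield `F.map e ⊆ F'` is the norm along the
                        restriction `e : F → F'`, transported by `F ≃ F.map e`;
* `s36d_gen_sup`      : a subfield of `E = A ⊔ B` containing the constants, `A` and `B` is `⊤`;
* `s36d_gen_beta_full`: full-level fields: a subfield of `F_{M q}(L)` containing the constants,
                        `β_q(F_M(L))` and `j(X^k)` (`k ≠ q` a prime) is `⊤` (helper26's `W_q`-trick at
                        level `k q`; no Atkin–Lehner operator at level `M q`).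
Prefix `s36d_`.  Owner: helper28.
-/
import Mathlib
import Fermat.Agent.S35.PEquiv.NormAlong
import Fermat.Agent.SS.Model.ALE

set_option autoImplicit false
set_option linter.unusedSectionVars false
set_option linter.unusedVariables false
set_option linter.style.haveILetI false

noncomputable section

namespace Fermat.Agent.S36

open ModularCurve AlgebraicCurve Module IntermediateField
open Fermat.Agent.S24 Fermat.Agent.S28 Fermat.Agent.JT3 Fermat.Agent.SS Fermat.Agent.S35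

section Ambient

variable {K Ω : Type*} [Field K] [Field Ω] [Algebra K Ω]

/-- **(N2), ambient form.** -/
theorem s36d_cover_norm (e φ : Ω →ₐ[K] Ω) (hcomm : ∀ x, φ (e x) = e (φ x))
    (F₁ F₂ E₁ E₂ : IntermediateField K Ω)
    (heF : ∀ x ∈ F₁, e x ∈ F₂) (heE : ∀ x ∈ E₁, e x ∈ E₂)
    (hφ1 : ∀ x ∈ F₁, φ x ∈ E₁) (hφ2 : ∀ x ∈ F₂, φ x ∈ E₂)
    {d : ℕ} (hd : 0 < d)
    (hdF : IntermediateField.relfinrank (F₁.map e) F₂ = d)
    (hdE : IntermediateField.relfinrank (E₁.map e) E₂ = d)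
    (hgen : ∀ S : Subfield E₂, (∀ x : E₁, s35pe_res e E₁ E₂ heE x ∈ S) →
      (∀ y : F₂, s35pe_res φ F₂ E₂ hφ2 y ∈ S) → S = ⊤) (g : F₂) :
    s35pe_normAlong (s35pe_res e E₁ E₂ heE) (s35pe_res φ F₂ E₂ hφ2 g) =
      s35pe_res φ F₁ E₁ hφ1 (s35pe_normAlong (s35pe_res e F₁ F₂ heF) g) :=
  s35pe_normAlong_baseChange (s35pe_res e F₁ F₂ heF) (s35pe_res e E₁ E₂ heE)
    (s35pe_res φ F₁ E₁ hφ1 : F₁ →+* E₁) (s35pe_res φ F₂ E₂ hφ2 : F₂ →+* E₂)
    (fun x => Subtype.ext (hcomm x)) (by rw [s35pe_finrankAlong_res, hdF]; exact hd)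
    (by rw [s35pe_finrankAlong_res, s35pe_finrankAlong_res, hdF, hdE]) hgen g

/-- the norm to the image subfield `F.map e ⊆ F'` is the norm along the restriction of `e`,
transported by `F ≃ F.map e`. -/
theorem s36d_norm_map_eq (e : Ω →ₐ[K] Ω) (F F' : IntermediateField K Ω)
    (h : ∀ x ∈ F, e x ∈ F') (h' : F.map e ≤ F') (g : F') :
    (letI := (IntermediateField.inclusion h').toRingHom.toAlgebra
     Algebra.norm ↥(F.map e) g) =
      F.equivMap e (s35pe_normAlong (s35pe_res e F F' h) g) := by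
  letI a1 := algebraAlong (s35pe_res e F F' h)
  letI a2 := (IntermediateField.inclusion h').toRingHom.toAlgebra
  let i : F ≃+* F.map e := (F.equivMap e).toRingEquiv
  have key := Algebra.norm_eq_of_equiv_equiv (A₁ := F) (B₁ := F') (A₂ := F.map e) (B₂ := F')
    i (RingEquiv.refl F') (RingHom.ext fun x => Subtype.ext rfl) g
  have h2 : i (Algebra.norm F g) = Algebra.norm ↥(F.map e) g := by
    rw [key, RingEquiv.apply_symm_apply]
    rfl
  rw [← h2]
  rfl

/-- a subfield of `E = A ⊔ B` containing the constants, `A` and `B` is everything -/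
theorem s36d_gen_sup (E A B : IntermediateField K Ω) (hE : E = A ⊔ B) (S : Subfield E)
    (hK : ∀ c : K, algebraMap K E c ∈ S)
    (hA : ∀ x ∈ A, ∀ h : x ∈ E, (⟨x, h⟩ : E) ∈ S)
    (hB : ∀ x ∈ B, ∀ h : x ∈ E, (⟨x, h⟩ : E) ∈ S) : S = ⊤ := by
  have hAE : A ≤ E := hE ▸ le_sup_left
  have hBE : B ≤ E := hE ▸ le_sup_right
  set T : IntermediateField K Ω := IntermediateField.lift (S.toIntermediateField hK) with hT
  have hmem : ∀ y : E, (y : Ω) ∈ T ↔ y ∈ S := fun y => by
    rw [hT, IntermediateField.mem_lift]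
    rfl
  have hle : E ≤ T := by
    rw [hE]
    refine sup_le (fun x hx => ?_) (fun x hx => ?_)
    · exact (hmem ⟨x, hAE hx⟩).2 (hA x hx _)
    · exact (hmem ⟨x, hBE hx⟩).2 (hB x hx _)
  rw [eq_top_iff]
  intro y _
  exact (hmem y).1 (hle y.2)

end Ambient

section Norms

variable {K Ω : Type*} [Field K] [Field Ω] [Algebra K Ω]
  {F₁ F₂ : Type*} [Field F₁] [Field F₂] [Algebra K F₁] [Algebra K F₂]

/-- the norm along `γ` of a nonzero element is nonzero (finite degree) -/
theorem s36d_normAlong_ne_zero' (γ : F₁ →ₐ[K] F₂) (hpos : 0 < finrankAlong K γ) {r : F₂}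
    (hr : r ≠ 0) : s35pe_normAlong γ r ≠ 0 := by
  letI := algebraAlong γ
  haveI : FiniteDimensional F₁ F₂ := Module.finite_of_finrank_pos hpos
  rw [s35pe_normAlong_apply]
  exact Algebra.norm_ne_zero_iff.mpr hr

/-- **transport of the two norm hypotheses to the cover** (abstract form): `α β : F₁ → F₂` the two
degeneracy maps, `ι_i : F_i → E_i` the maps to the cover fields `E₁ ≤ E₂ ⊆ Ω`, `e` the ambient
endomorphism inducing `β` on the cover. -/
theorem s36d_cover_norms (e : Ω →ₐ[K] Ω) (E₁ E₂ : IntermediateField K Ω)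
    (hE : E₁ ≤ E₂) (hEβ : E₁.map e ≤ E₂) (heE : ∀ x ∈ E₁, e x ∈ E₂)
    (α β : F₁ →ₐ[K] F₂) (ι₁ : F₁ →ₐ[K] E₁) (ι₂ : F₂ →ₐ[K] E₂)
    (hcα : ∀ x, ι₂ (α x) = IntermediateField.inclusion hE (ι₁ x))
    (hcβ : ∀ x, ι₂ (β x) = s35pe_res e E₁ E₂ heE (ι₁ x))
    {q : ℕ} (hq : 0 < q) (hdα : finrankAlong K α = q) (hdβ : finrankAlong K β = q)
    (hdEα : IntermediateField.relfinrank E₁ E₂ = q)
    (hdEβ : IntermediateField.relfinrank (E₁.map e) E₂ = q)
    (hgenα : ∀ S : Subfield E₂, (∀ x : E₁, IntermediateField.inclusion hE x ∈ S) →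
      (∀ y : F₂, ι₂ y ∈ S) → S = ⊤)
    (hgenβ : ∀ S : Subfield E₂, (∀ x : E₁, s35pe_res e E₁ E₂ heE x ∈ S) →
      (∀ y : F₂, ι₂ y ∈ S) → S = ⊤)
    {m : ℕ} (hm : m ≠ 0) (g1 : F₂) (hg1 : g1 ≠ 0)
    (hα : ∃ (a : K) (s : F₁), s35pe_normAlong α g1 = algebraMap K F₁ a * s ^ m)
    (hβ : ∃ (a : K) (s : F₁), s35pe_normAlong β g1 = algebraMap K F₁ a * s ^ m) :
    (∃ (c : K) (r : E₁), r ≠ 0 ∧
      (letI := (IntermediateField.inclusion hE).toRingHom.toAlgebra
       Algebra.norm ↥E₁ (ι₂ g1)) = algebraMap K ↥E₁ c * r ^ m) ∧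
    (∃ (c : K) (r : ↥(E₁.map e)), r ≠ 0 ∧
      (letI := (IntermediateField.inclusion hEβ).toRingHom.toAlgebra
       Algebra.norm ↥(E₁.map e) (ι₂ g1)) = algebraMap K ↥(E₁.map e) c * r ^ m) := by
  -- (N2α)
  have hNα : s35pe_normAlong (IntermediateField.inclusion hE) (ι₂ g1) =
      ι₁ (s35pe_normAlong α g1) :=
    s35pe_normAlong_baseChange α (IntermediateField.inclusion hE)
      (ι₁ : F₁ →+* E₁) (ι₂ : F₂ →+* E₂) hcα (by rw [hdα]; exact hq)
      (by rw [s35pe_finrankAlong_inclusion, hdEα, hdα]) hgenα g1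
  -- (N2β)
  have hNβ : s35pe_normAlong (s35pe_res e E₁ E₂ heE) (ι₂ g1) =
      ι₁ (s35pe_normAlong β g1) :=
    s35pe_normAlong_baseChange β (s35pe_res e E₁ E₂ heE)
      (ι₁ : F₁ →+* E₁) (ι₂ : F₂ →+* E₂) hcβ (by rw [hdβ]; exact hq)
      (by rw [s35pe_finrankAlong_res, hdEβ, hdβ]) hgenβ g1
  have hnz : ∀ γ : F₁ →ₐ[K] F₂, 0 < finrankAlong K γ → ∀ (a : K) (s : F₁),
      s35pe_normAlong γ g1 = algebraMap K F₁ a * s ^ m → s ≠ 0 := by
    intro γ hpos a s hs
    rintro rfl
    rw [zero_pow hm, mul_zero] at hs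
    exact s36d_normAlong_ne_zero' γ hpos hg1 hs
  refine ⟨?_, ?_⟩
  · obtain ⟨a, s, hs⟩ := hα
    have hs0 := hnz α (by rw [hdα]; exact hq) a s hs
    refine ⟨a, ι₁ s, by rwa [Ne, map_eq_zero], ?_⟩
    have : s35pe_normAlong (IntermediateField.inclusion hE) (ι₂ g1) =
        algebraMap K ↥E₁ a * ι₁ s ^ m := by
      rw [hNα, hs, map_mul, map_pow, AlgHom.commutes]
    exact this
  · obtain ⟨a, s, hs⟩ := hβ
    have hs0 := hnz β (by rw [hdβ]; exact hq) a s hs
    refine ⟨a, E₁.equivMap e (ι₁ s), ?_, ?_⟩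
    · rw [Ne, EmbeddingLike.map_eq_zero_iff, map_eq_zero]
      exact hs0
    · rw [s36d_norm_map_eq e E₁ E₂ heE hEβ (ι₂ g1), hNβ, hs, map_mul,
        map_pow, AlgHom.commutes, map_mul, map_pow, AlgEquiv.commutes]

end Norms

section Full

variable (L : Type*) [Field L] [CharZero L] [Algebra L (AlgebraicClosure ℚ)]
  (M q k : ℕ) [NeZero M] [NeZero q] [NeZero k]

/-- **generation, `β`-side, full-level fields**: a subfield of `F_{M q}(L)` containing the
constants, `β_q(F_M(L))` and `j(X^k)`, `k ≠ q` primes, is everything. -/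
theorem s36d_gen_beta_full (hq : q.Prime) (hk : k.Prime) (hqk : q ≠ k) (hkM : k ∣ M)
    (S : Subfield (lg_F L (M * q)))
    (hK : ∀ c : L, algebraMap L (lg_F L (M * q)) c ∈ S)
    (h1 : ∀ x ∈ lg_F L M, ∀ h : qExpand L q x ∈ lg_F L (M * q),
      (⟨qExpand L q x, h⟩ : lg_F L (M * q)) ∈ S)
    (h2 : ∀ h : qExpand L k (jqModC L) ∈ lg_F L (M * q),
      (⟨qExpand L k (jqModC L), h⟩ : lg_F L (M * q)) ∈ S) : S = ⊤ := by
  have hqk' : ¬ q ∣ k := fun h => hqk ((Nat.prime_dvd_prime_iff_eq hq hk).mp h)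
  -- `j(X^q)` lies in `S`
  have hjq : ∀ h : qExpand L q (jqModC L) ∈ lg_F L (M * q),
      (⟨qExpand L q (jqModC L), h⟩ : lg_F L (M * q)) ∈ S :=
    fun h => h1 _ (jqModC_mem_full L M) h
  -- the level-`k q` field inside the top field
  have hle : lg_F L (k * q) ≤ lg_F L (M * q) :=
    full_degeneracyC_le L (mul_dvd_mul_right hkM q)
  set W := ssm_al_W L k q hq hqk' with hW
  set T : Subfield (lg_F L (k * q)) :=
    S.comap (IntermediateField.inclusion hle : lg_F L (k * q) →+* lg_F L (M * q)) with hT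
  set T' : Subfield (lg_F L (k * q)) :=
    T.comap ((W : lg_F L (k * q) →ₐ[L] lg_F L (k * q)) :
      lg_F L (k * q) →+* lg_F L (k * q)) with hT'
  have hj1 : jqModC L ∈ lg_F L k := jqModC_mem_full L k
  have hjk1 : qExpand L k (jqModC L) ∈ lg_F L k := jqModCd_mem_full L k dvd_rfl
  have hT'top : T' = ⊤ := by
    refine s35pe_subfield_eq_top (ssm_al_F_eq_adjoin_pair L (k * q)) T' (fun c => ?_)
      fun x hx h => ?_
    · show (IntermediateField.inclusion hle (W (algebraMap L (lg_F L (k * q)) c))) ∈ S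
      rw [AlgEquiv.commutes, AlgHom.commutes]
      exact hK c
    · rcases hx with rfl | rfl
      · -- `W j = j(X^q)`
        show (IntermediateField.inclusion hle (W ⟨jqModC L, h⟩)) ∈ S
        have e : W ⟨jqModC L, h⟩ =
            ⟨qExpand L q (jqModC L), ssm_al_expand_mem L k q hj1⟩ :=
          Subtype.ext (ssm_al_coe_W_of_mem L k q hq hqk' hj1 h)
        rw [e]
        exact hjq _
      · -- `W j(X^{k q}) = j(X^k)`
        show (IntermediateField.inclusion hle (W ⟨qExpand L (k * q) (jqModC L), h⟩)) ∈ S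
        have e0 : qExpand L (k * q) (jqModC L) =
            qExpand L q (qExpand L k (jqModC L)) := by
          rw [qExpand_qExpand]
          exact qExpand_congr (mul_comm k q) _
        have h' : qExpand L q (qExpand L k (jqModC L)) ∈ lg_F L (k * q) := e0 ▸ h
        have e1 : (⟨qExpand L (k * q) (jqModC L), h⟩ : lg_F L (k * q)) =
            ⟨qExpand L q (qExpand L k (jqModC L)), h'⟩ := Subtype.ext e0
        have e : W ⟨qExpand L q (qExpand L k (jqModC L)), h'⟩ =
            ⟨qExpand L k (jqModC L), ssm_al_mem_of_mem L k q hjk1⟩ :=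
          Subtype.ext (ssm_al_coe_W_expand_of_mem L k q hq hqk' hjk1 h')
        rw [e1, e]
        exact h2 _
  -- hence `j = W (j(X^q)) ∈ S`
  have hj : ∀ h : jqModC L ∈ lg_F L (M * q),
      (⟨jqModC L, h⟩ : lg_F L (M * q)) ∈ S := fun h => by
    have hmem : (⟨qExpand L q (jqModC L), ssm_al_expand_mem L k q hj1⟩ :
        lg_F L (k * q)) ∈ T' := by rw [hT'top]; trivial
    have e : W ⟨qExpand L q (jqModC L), ssm_al_expand_mem L k q hj1⟩ =
        ⟨jqModC L, ssm_al_mem_of_mem L k q hj1⟩ :=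
      Subtype.ext (ssm_al_coe_W_expand_of_mem L k q hq hqk' hj1 _)
    have h3 : (IntermediateField.inclusion hle
        (W ⟨qExpand L q (jqModC L), ssm_al_expand_mem L k q hj1⟩)) ∈ S := hmem
    rw [e] at h3
    exact h3
  -- conclusion
  refine s35pe_subfield_eq_top (ssm_al_F_eq_adjoin_pair L (M * q)) S hK fun x hx h => ?_
  rcases hx with rfl | rfl
  · exact hj h
  · have e0 : qExpand L (M * q) (jqModC L) = qExpand L q (qExpand L M (jqModC L)) := by
      rw [qExpand_qExpand]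
      exact qExpand_congr (mul_comm M q) _
    have h' : qExpand L q (qExpand L M (jqModC L)) ∈ lg_F L (M * q) := e0 ▸ h
    have e1 : (⟨qExpand L (M * q) (jqModC L), h⟩ : lg_F L (M * q)) =
        ⟨qExpand L q (qExpand L M (jqModC L)), h'⟩ := Subtype.ext e0
    rw [e1]
    exact h1 _ (jqModCd_mem_full L M dvd_rfl) h'

end Full

end Fermat.Agent.S36
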