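/-
Project S36 (Carayol), cell [DESC], the cover passage, THE STEP over one constant field `L ⊆ Q̄`
(generic in the cover; twin of `ssd_step`, SS/Descent/Step.lean).

`F_M = laurentBaseChange L (modularFunctionFieldFull M)`, `q` prime, `q ∣ M`; cover fields
`E₁ ⊆ E₂ ⊆ L((X))` with `β_q(E₁) ⊆ E₂`, `φ = (X ↦ X^k) : F_M → E₁`, `F_{M q} → E₂`, both degrees `q`.
From
* the generation of `E₂` by `E₁` and `φ(F_{M q})`, resp. by `β_q(E₁)` and `φ(F_{M q})`,
* the root descent `E₂ → F_{M q}`,
* the core in `E₂` (norms to `E₁` and to the subfield `β_q(E₁)`),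
a function `g1 ∈ F_{M q}ˣ` with all orders divisible by `m` and `Norm_α g1 = a · s^m`,
`Norm_β g1 = a' · s'^m` satisfies `g1^d = c · r^m` in `F_{M q}`   (`s36d_cover_step`).
Prefix `s36d_`.  Owner: helper28.
-/
import Mathlib
import Fermat.Agent.S36.Desc.CoverGen
import Fermat.Agent.S36.Desc.NormBar
import Fermat.Agent.JT3.Inst.H4

set_option autoImplicit false
set_option linter.unusedSectionVars false
set_option linter.unusedVariables false
set_option linter.style.haveILetI false
set_option synthInstance.maxHeartbeats 400000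
set_option maxHeartbeats 1000000

noncomputable section

namespace Fermat.Agent.S36

open ModularCurve AlgebraicCurve Module IntermediateField
open Fermat.Agent.S24 Fermat.Agent.S28 Fermat.Agent.JT3 Fermat.Agent.SS Fermat.Agent.S35

local notation "Qb" => AlgebraicClosure ℚ

section Step

variable (L : Type) [Field L] [Algebra ℚ L] [Algebra L Qb]
  (M q k : ℕ) [NeZero M] [NeZero q] [NeZero k]

/-- **THE COVER STEP.** -/
theorem s36d_cover_step (hq : q.Prime) (hqM : q ∣ M)
    (E₁ E₂ : IntermediateField L (LaurentSeries L))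
    (hE : E₁ ≤ E₂) (hEβ : E₁.map (qExpandAlgHomC L q) ≤ E₂)
    (hφ1 : ∀ x ∈ laurentBaseChange L (modularFunctionFieldFull M),
      qExpandAlgHomC L k x ∈ E₁)
    (hφ2 : ∀ x ∈ laurentBaseChange L (modularFunctionFieldFull (M * q)),
      qExpandAlgHomC L k x ∈ E₂)
    (hdα : IntermediateField.relfinrank E₁ E₂ = q)
    (hdβ : IntermediateField.relfinrank (E₁.map (qExpandAlgHomC L q)) E₂ = q)
    (hgenα : ∀ S : Subfield E₂, (∀ x : E₁, IntermediateField.inclusion hE x ∈ S) →
      (∀ y : laurentBaseChange L (modularFunctionFieldFull (M * q)),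
        s35pe_res (qExpandAlgHomC L k) _ E₂ hφ2 y ∈ S) → S = ⊤)
    (hgenβ : ∀ S : Subfield E₂,
      (∀ x : E₁, s35pe_res (qExpandAlgHomC L q) E₁ E₂
        (fun x hx => hEβ ⟨x, hx, rfl⟩) x ∈ S) →
      (∀ y : laurentBaseChange L (modularFunctionFieldFull (M * q)),
        s35pe_res (qExpandAlgHomC L k) _ E₂ hφ2 y ∈ S) → S = ⊤)
    {m d : ℕ} (hm : m ≠ 0)
    (hroot : ∀ f : laurentBaseChange L (modularFunctionFieldFull (M * q)),
      (∀ P : Place L (laurentBaseChange L (modularFunctionFieldFull (M * q))),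
        (m : ℤ) ∣ P.ord f) →
      ∀ (c : L) (g : LaurentSeries L), g ∈ E₂ →
        qExpand L k (f : LaurentSeries L) = algebraMap L (LaurentSeries L) c * g ^ m →
        ∃ (c' : L) (g' : laurentBaseChange L (modularFunctionFieldFull (M * q))),
          f = algebraMap L (laurentBaseChange L (modularFunctionFieldFull (M * q))) c' * g' ^ m)
    (hcore : ∀ g : E₂, g ≠ 0 → (∀ v : Place L E₂, (m : ℤ) ∣ v.ord g) →
      (∃ (c : L) (r : E₁), r ≠ 0 ∧
        (letI := (IntermediateField.inclusion hE).toRingHom.toAlgebra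
         Algebra.norm ↥E₁ g) = algebraMap L ↥E₁ c * r ^ m) →
      (∃ (c : L) (r : ↥(E₁.map (qExpandAlgHomC L q))), r ≠ 0 ∧
        (letI := (IntermediateField.inclusion hEβ).toRingHom.toAlgebra
         Algebra.norm ↥(E₁.map (qExpandAlgHomC L q)) g) =
          algebraMap L ↥(E₁.map (qExpandAlgHomC L q)) c * r ^ m) →
      ∃ (c : L) (r : E₂), r ≠ 0 ∧ g ^ d = algebraMap L ↥E₂ c * r ^ m)
    (g1 : laurentBaseChange L (modularFunctionFieldFull (M * q))) (hg1 : g1 ≠ 0)
    (hord : ∀ w : Place L (laurentBaseChange L (modularFunctionFieldFull (M * q))),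
      (m : ℤ) ∣ w.ord g1)
    (hα : ∃ (a : L) (s : laurentBaseChange L (modularFunctionFieldFull M)),
      s35pe_normAlong (heckeAlphaBar L M q) g1 =
        algebraMap L (laurentBaseChange L (modularFunctionFieldFull M)) a * s ^ m)
    (hβ : ∃ (a : L) (s : laurentBaseChange L (modularFunctionFieldFull M)),
      s35pe_normAlong (heckeBetaBar L M q) g1 =
        algebraMap L (laurentBaseChange L (modularFunctionFieldFull M)) a * s ^ m) :
    ∃ (c : L) (r : laurentBaseChange L (modularFunctionFieldFull (M * q))),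
      g1 ^ d = algebraMap L (laurentBaseChange L (modularFunctionFieldFull (M * q))) c * r ^ m := by
  -- the maps to the cover
  set ι₁ : laurentBaseChange L (modularFunctionFieldFull M) →ₐ[L] E₁ :=
    s35pe_res (qExpandAlgHomC L k) _ E₁ hφ1 with hι₁
  set ι₂ : laurentBaseChange L (modularFunctionFieldFull (M * q)) →ₐ[L] E₂ :=
    s35pe_res (qExpandAlgHomC L k) _ E₂ hφ2 with hι₂
  have heE : ∀ x ∈ E₁, qExpandAlgHomC L q x ∈ E₂ := fun x hx => hEβ ⟨x, hx, rfl⟩
  have hαdeg : finrankAlong L (heckeAlphaBar L M q) = q := s36d_finrankAlong_alpha L M q hq hqM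
  have hβdeg : finrankAlong L (heckeBetaBar L M q) = q := s36d_finrankAlong_beta L M q hq hqM
  have hcα : ∀ x, ι₂ (heckeAlphaBar L M q x) = IntermediateField.inclusion hE (ι₁ x) := by
    intro x
    apply Subtype.ext
    show qExpandAlgHomC L k ((heckeAlphaBar L M q x : _) : LaurentSeries L) =
      qExpandAlgHomC L k (x : LaurentSeries L)
    rw [coe_heckeAlphaBar]
  have hcβ : ∀ x, ι₂ (heckeBetaBar L M q x) =
      s35pe_res (qExpandAlgHomC L q) E₁ E₂ heE (ι₁ x) := by
    intro x
    apply Subtype.ext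
    show qExpandAlgHomC L k ((heckeBetaBar L M q x : _) : LaurentSeries L) =
      qExpandAlgHomC L q (qExpandAlgHomC L k (x : LaurentSeries L))
    rw [coe_heckeBetaBar, qExpandAlgHomC_apply, qExpandAlgHomC_apply, qExpandAlgHomC_apply,
      qExpand_qExpand, qExpand_qExpand]
    exact qExpand_congr (mul_comm k q) _
  obtain ⟨h1, h2⟩ := s36d_cover_norms (qExpandAlgHomC L q) E₁ E₂ hE hEβ heE
    (heckeAlphaBar L M q) (heckeBetaBar L M q) ι₁ ι₂ hcα hcβ hq.pos hαdeg hβdeg hdα hdβ
    hgenα hgenβ hm g1 hg1 hα hβ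
  -- the element of the cover
  have hg0 : ι₂ g1 ≠ 0 := by rwa [Ne, map_eq_zero]
  have hordE : ∀ v : Place L E₂, (m : ℤ) ∣ v.ord (ι₂ g1) :=
    fun v => lg_dvd_ord_of_embedding ι₂ (m : ℤ) g1 hord v
  -- the core
  obtain ⟨c, r, hr, hcr⟩ := hcore (ι₂ g1) hg0 hordE h1 h2
  -- the root descent
  have hordd : ∀ P : Place L (laurentBaseChange L (modularFunctionFieldFull (M * q))),
      (m : ℤ) ∣ P.ord (g1 ^ d) := by
    intro P
    have h := P.ord_zpow g1 (d : ℤ)
    rw [zpow_natCast] at h
    rw [h]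
    exact Dvd.dvd.mul_left (hord P) _
  have hfg : qExpand L k ((g1 ^ d : laurentBaseChange L (modularFunctionFieldFull (M * q))) :
      LaurentSeries L) = algebraMap L (LaurentSeries L) c * (r : LaurentSeries L) ^ m := by
    have e : ((ι₂ g1 : E₂) : LaurentSeries L) = qExpand L k (g1 : LaurentSeries L) := rfl
    have h3 := congrArg (fun z : E₂ => (z : LaurentSeries L)) hcr
    simp only [IntermediateField.coe_mul, IntermediateField.coe_pow,
      IntermediateField.coe_algebraMap_apply] at h3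
    rw [e] at h3
    show qExpand L k ((g1 : LaurentSeries L) ^ d) = _
    rw [map_pow]
    exact h3
  exact hroot (g1 ^ d) hordd c (r : LaurentSeries L) r.2 hfg

end Step

end Fermat.Agent.S36
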