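/-
Project S36 (Carayol), cell [DESC], the cover passage: THE STEP FOR A COVER GIVEN BY ITS STRUCTURE
(`E_M = φ(F_M) ⊔ K₀ = F_{lvl(M)}`), common to the Legendre cover (`φ = X ↦ X²`, `K₀ = L(λ)`,
`lvl M = lcm(4, 2M)`) and the Hesse cover (`φ = X ↦ X³`, `K₀ = L(μ)`, `lvl M = lcm(9, 3M)`).

`s36d_cover_struct_step` : the hypotheses `hgenα`, `hgenβ`, `hdα`, `hdβ` of `s36d_cover_step` are
derived from
* `E₁ = φ(F_M) ⊔ K₀`, `E₂ = φ(F_{M q}) ⊔ K₀`            (generation, `α`-side: `s36d_gen_sup`),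
* `E₁ = F_lvl`, `E₂ = F_{lvl q}`, `k ∣ lvl`, `q ∣ lvl`   (degrees: helper26's S36/PEquiv2/Deg.lean;
                                         generation, `β`-side: `s36d_gen_beta_full`).
Prefix `s36d_`.  Owner: helper28.
-/
import Mathlib
import Fermat.Agent.S36.Desc.CoverStep

set_option autoImplicit false
set_option linter.unusedSectionVars false
set_option linter.unusedVariables false
set_option linter.style.haveILetI false
set_option synthInstance.maxHeartbeats 400000
set_option maxHeartbeats 1000000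

noncomputable section

namespace Fermat.Agent.S36

open ModularCurve AlgebraicCurve Module IntermediateField
open Fermat.Agent.S24 Fermat.Agent.S28 Fermat.Agent.JT3 Fermat.Agent.SS Fermat.Agent.S35

local notation "Qb" => AlgebraicClosure ℚ

section Struct

variable (L : Type) [Field L] [Algebra ℚ L] [Algebra L Qb]
  (M q k lvl : ℕ) [NeZero M] [NeZero q] [NeZero k] [NeZero lvl]

/-- **THE COVER STEP for a cover given by its structure.** -/
theorem s36d_cover_struct_step (hq : q.Prime) (hqM : q ∣ M) (hk : k.Prime) (hqk : q ≠ k)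
    (E₁ E₂ K₀ : IntermediateField L (LaurentSeries L))
    (hE : E₁ ≤ E₂) (hEβ : E₁.map (qExpandAlgHomC L q) ≤ E₂)
    (hS₁ : E₁ = (lg_F L M).map (qExpandAlgHomC L k) ⊔ K₀)
    (hS₂ : E₂ = (lg_F L (M * q)).map (qExpandAlgHomC L k) ⊔ K₀)
    (hk_lvl : k ∣ lvl) (hq_lvl : q ∣ lvl)
    (hL₁ : E₁ = lg_F L lvl) (hL₂ : E₂ = lg_F L (lvl * q))
    {m d : ℕ} (hm : m ≠ 0)
    (hroot : ∀ f : laurentBaseChange L (modularFunctionFieldFull (M * q)),
      (∀ P : Place L (laurentBaseChange L (modularFunctionFieldFull (M * q))),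
        (m : ℤ) ∣ P.ord f) →
      ∀ (c : L) (g : LaurentSeries L), g ∈ E₂ →
        qExpand L k (f : LaurentSeries L) = algebraMap L (LaurentSeries L) c * g ^ m →
        ∃ (c' : L) (g' : laurentBaseChange L (modularFunctionFieldFull (M * q))),
          f = algebraMap L (laurentBaseChange L (modularFunctionFieldFull (M * q))) c' * g' ^ m)
    (hcore : ∀ g : E₂, g ≠ 0 → (∀ v : Place L E₂, (m : ℤ) ∣ v.ord g) →
      (∃ (c : L) (r : E₁), r ≠ 0 ∧
        (letI := (IntermediateField.inclusion hE).toRingHom.toAlgebra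
         Algebra.norm ↥E₁ g) = algebraMap L ↥E₁ c * r ^ m) →
      (∃ (c : L) (r : ↥(E₁.map (qExpandAlgHomC L q))), r ≠ 0 ∧
        (letI := (IntermediateField.inclusion hEβ).toRingHom.toAlgebra
         Algebra.norm ↥(E₁.map (qExpandAlgHomC L q)) g) =
          algebraMap L ↥(E₁.map (qExpandAlgHomC L q)) c * r ^ m) →
      ∃ (c : L) (r : E₂), r ≠ 0 ∧ g ^ d = algebraMap L ↥E₂ c * r ^ m)
    (g1 : laurentBaseChange L (modularFunctionFieldFull (M * q))) (hg1 : g1 ≠ 0)
    (hord : ∀ w : Place L (laurentBaseChange L (modularFunctionFieldFull (M * q))),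
      (m : ℤ) ∣ w.ord g1)
    (hα : ∃ (a : L) (s : laurentBaseChange L (modularFunctionFieldFull M)),
      s35pe_normAlong (heckeAlphaBar L M q) g1 =
        algebraMap L (laurentBaseChange L (modularFunctionFieldFull M)) a * s ^ m)
    (hβ : ∃ (a : L) (s : laurentBaseChange L (modularFunctionFieldFull M)),
      s35pe_normAlong (heckeBetaBar L M q) g1 =
        algebraMap L (laurentBaseChange L (modularFunctionFieldFull M)) a * s ^ m) :
    ∃ (c : L) (r : laurentBaseChange L (modularFunctionFieldFull (M * q))),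
      g1 ^ d = algebraMap L (laurentBaseChange L (modularFunctionFieldFull (M * q))) c * r ^ m := by
  haveI : CharZero L := algebraRat.charZero L
  -- `φ` maps the level fields into the cover fields
  have hφ1 : ∀ x ∈ laurentBaseChange L (modularFunctionFieldFull M),
      qExpandAlgHomC L k x ∈ E₁ := by
    intro x hx
    rw [← lg_F_eq_laurentBaseChange] at hx
    rw [hS₁]
    exact (le_sup_left : _ ≤ (lg_F L M).map (qExpandAlgHomC L k) ⊔ K₀) ⟨x, hx, rfl⟩
  have hφ2 : ∀ x ∈ laurentBaseChange L (modularFunctionFieldFull (M * q)),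
      qExpandAlgHomC L k x ∈ E₂ := by
    intro x hx
    rw [← lg_F_eq_laurentBaseChange] at hx
    rw [hS₂]
    exact (le_sup_left : _ ≤ (lg_F L (M * q)).map (qExpandAlgHomC L k) ⊔ K₀) ⟨x, hx, rfl⟩
  have hK₀ : K₀ ≤ E₁ := hS₁ ▸ le_sup_right
  -- degrees
  have hdα : IntermediateField.relfinrank E₁ E₂ = q := by
    rw [hL₁, hL₂]
    exact s36pe_relfinrank_alpha_dvd L lvl q hq hq_lvl
  have hdβ : IntermediateField.relfinrank (E₁.map (qExpandAlgHomC L q)) E₂ = q := by
    rw [hL₁, hL₂]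
    exact s36pe_relfinrank_beta_dvd L lvl q hq hq_lvl
  refine s36d_cover_step L M q k hq hqM E₁ E₂ hE hEβ hφ1 hφ2 hdα hdβ ?_ ?_ hm hroot hcore g1 hg1
    hord hα hβ
  · -- generation, `α`-side
    intro S h1 h2
    refine s36d_gen_sup E₂ ((lg_F L (M * q)).map (qExpandAlgHomC L k)) K₀ hS₂ S (fun c => ?_)
      (fun x hx h => ?_) (fun x hx h => ?_)
    · have := h1 (algebraMap L E₁ c)
      rwa [AlgHom.commutes] at this
    · obtain ⟨y, hy, rfl⟩ := hx
      have hy' : y ∈ laurentBaseChange L (modularFunctionFieldFull (M * q)) := by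
        rw [← lg_F_eq_laurentBaseChange]; exact hy
      exact h2 ⟨y, hy'⟩
    · exact h1 ⟨x, hK₀ hx⟩
  · -- generation, `β`-side
    intro S h1 h2
    have key : ∀ (E₁' E₂' : IntermediateField L (LaurentSeries L)), E₁' = lg_F L lvl →
        E₂' = lg_F L (lvl * q) → ∀ S' : Subfield E₂',
        (∀ c : L, algebraMap L E₂' c ∈ S') →
        (∀ x ∈ E₁', ∀ h : qExpand L q x ∈ E₂', (⟨qExpand L q x, h⟩ : E₂') ∈ S') →
        (∀ h : qExpand L k (jqModC L) ∈ E₂', (⟨qExpand L k (jqModC L), h⟩ : E₂') ∈ S') →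
        S' = ⊤ := by
      rintro E₁' E₂' rfl rfl S' hK' h1' h2'
      exact s36d_gen_beta_full L lvl q k hq hk hqk hk_lvl S' hK' h1' h2'
    refine key E₁ E₂ hL₁ hL₂ S (fun c => ?_) (fun x hx h => ?_) (fun h => ?_)
    · have := h1 (algebraMap L E₁ c)
      rwa [AlgHom.commutes] at this
    · exact h1 ⟨x, hx⟩
    · have hj : jqModC L ∈ laurentBaseChange L (modularFunctionFieldFull (M * q)) := by
        rw [← lg_F_eq_laurentBaseChange]; exact jqModC_mem_full L (M * q)
      exact h2 ⟨jqModC L, hj⟩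

end Struct

end Fermat.Agent.S36
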