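/-
Project S36 (Carayol), cell [DESC], the cover passage, HESSE COVER (`q ≠ 3`; in the application
`q = 2`): the official core seam `s36h_CoreNF N' q hq3` (S36/Seams.lean) gives the core at
`F`-level `s36d_CoreF (N' q) q A d`, hence helper16's Kummer seam and the official
`s36_KeyBar N' q`.  (The root descent of the Hesse cover needs `ζ₃` in the constant field: it is put
into the finite inertia-fixed set `T`.)

* `s36d_hes_step`          : the cover step over one constant field `L ∋ ζ₃` for the Hesse cover;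
* `s36d_coreF_of_coreNFH`  : `s36h_CoreNF N' q hq3 → ∀ A | q, ∃ d ≠ 0, s36d_CoreF (N' q) q A d`;
* `s36d_keyBarAt_of_coreNFH`, `s36d_keyBar_of_coreNFH : s36h_CoreNF N' q hq3 → s36_KeyBar N' q`.
Prefix `s36d_`.  Owner: helper28.
-/
import Mathlib
import Fermat.Agent.S36.Desc.CoverStruct
import Fermat.Agent.S36.Desc.Step
import Fermat.Agent.S36.Seams
import Fermat.Agent.SS.Descent
import Fermat.Agent.S36.PEquiv2.DegE

set_option autoImplicit false
set_option linter.unusedSectionVars false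
set_option linter.unusedVariables false
set_option linter.style.haveILetI false
set_option synthInstance.maxHeartbeats 400000
set_option maxHeartbeats 1000000

noncomputable section

namespace Fermat.Agent.S36

open ModularCurve AlgebraicCurve Module IntermediateField
open Fermat.Agent.S24 Fermat.Agent.S28 Fermat.Agent.JT3 Fermat.Agent.SS Fermat.Agent.S35

local notation "Qb" => AlgebraicClosure ℚ

section Hes

variable (L : Type) [Field L] [Algebra ℚ L] [Algebra L Qb]
  (N' q : ℕ) [NeZero N'] [NeZero q]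

/-- **the cover step, Hesse cover.** -/
theorem s36d_hes_step [CharZero L] (h3 : (3 : L) ≠ 0) (hq : q.Prime) (hq3 : ¬ 3 ∣ q)
    {ζ : L} (hζ : IsPrimitiveRoot ζ 3) {m d : ℕ} (hm : m ≠ 0)
    (hcore : s36h_CoreAt (L := L) h3 N' q hq3 m d)
    (g1 : laurentBaseChange L (modularFunctionFieldFull (N' * q * q))) (hg1 : g1 ≠ 0)
    (hord : ∀ w : Place L (laurentBaseChange L (modularFunctionFieldFull (N' * q * q))),
      (m : ℤ) ∣ w.ord g1)
    (hα : ∃ (a : L) (s : laurentBaseChange L (modularFunctionFieldFull (N' * q))),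
      s35pe_normAlong (heckeAlphaBar L (N' * q) q) g1 =
        algebraMap L (laurentBaseChange L (modularFunctionFieldFull (N' * q))) a * s ^ m)
    (hβ : ∃ (a : L) (s : laurentBaseChange L (modularFunctionFieldFull (N' * q))),
      s35pe_normAlong (heckeBetaBar L (N' * q) q) g1 =
        algebraMap L (laurentBaseChange L (modularFunctionFieldFull (N' * q))) a * s ^ m) :
    ∃ (c : L) (r : laurentBaseChange L (modularFunctionFieldFull (N' * q * q))),
      g1 ^ d =
        algebraMap L (laurentBaseChange L (modularFunctionFieldFull (N' * q * q))) c * r ^ m := by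
  have hq3' : q ≠ 3 := by
    rintro rfl
    exact hq3 dvd_rfl
  refine s36d_cover_struct_step L (N' * q) q 3 (ssm_alh_level (N' * q)) hq
    (Dvd.intro_left N' rfl) Nat.prime_three hq3' (hs_E L h3 (N' * q)) (hs_E L h3 (N' * q * q))
    (hs_K L h3)
    (ssm_alh_E_le L h3 (ssm_fh_hF9 h3) (N' * q) q)
    (ssm_alh_E_beta_le L h3 (ssm_fh_hF9 h3) (N' * q) q hq3) rfl rfl
    ((Dvd.intro (N' * q) rfl).trans (ssm_alh_three_mul_dvd_level (N' * q)))
    (s36pe_dvd_alh_level (N' * q) q (Dvd.intro_left N' rfl))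
    (ssm_alh_E_eq_level L h3 (ssm_fh_hF9 h3) (N' * q))
    (ssm_alh_E_eq L h3 (ssm_fh_hF9 h3) (N' * q) q hq3) hm ?_ ?_ g1 hg1 hord hα hβ
  · -- root descent
    have h := ssd_hes_rootDescent (N' * q * q) L hζ hm
    intro f hf c g hg hfg
    rw [ssd_hs_E_eq L (N' * q * q) h3 ssd_three_ne_zero_rat] at hg
    exact h f hf c g hg hfg
  · -- the core
    intro g hg hv h1 h2
    exact hcore g ⟨hg, hv, h1, h2⟩

end Hes

section NF

variable (N' q : ℕ) [NeZero N'] [NeZero q]

/-- **the core at `F`-level from the official core seam, Hesse cover.** -/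
theorem s36d_coreF_of_coreNFH (hq : q.Prime) (hq3 : ¬ 3 ∣ q) (H : s36h_CoreNF N' q hq3)
    (A : ValuationSubring Qb) (hA : A.LiesOverPrime q) :
    ∃ d : ℕ, d ≠ 0 ∧ s36d_CoreF (N' * q) q A d := by
  classical
  haveI : Fact q.Prime := ⟨hq⟩
  obtain ⟨d, hd, T, hT, Hc⟩ := H A hA
  obtain ⟨ζ0, hζ0⟩ : ∃ ζ : Qb, IsPrimitiveRoot ζ 3 :=
    HasEnoughRootsOfUnity.exists_primitiveRoot Qb 3
  have hq3' : ¬ q ∣ 3 := fun h =>
    hq3 (by rw [(Nat.prime_dvd_prime_iff_eq hq Nat.prime_three).1 h])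
  have hT' : ∀ t ∈ insert ζ0 T, ∀ s ∈ A.inertiaSubgroupIn ℚ, s t = t := by
    intro t ht s hs
    rcases Finset.mem_insert.1 ht with rfl | ht
    · exact s35d_root_fixed A q hA hq3' hζ0.pow_eq_one hs
    · exact hT t ht s hs
  refine ⟨d, hd, insert ζ0 T, hT', fun L1 hL1 hTL1' m hqm hζ g1 hg1 hord hα hβ => ?_⟩
  have hm : m ≠ 0 := by
    rintro rfl
    exact hqm (dvd_zero q)
  have hTL1 : (↑T : Set Qb) ⊆ L1 := fun t ht =>
    hTL1' (Finset.mem_coe.2 (Finset.mem_insert_of_mem (Finset.mem_coe.1 ht)))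
  have hζL1 : ζ0 ∈ L1 := hTL1' (Finset.mem_coe.2 (Finset.mem_insert_self ζ0 T))
  have hζ3 : IsPrimitiveRoot (⟨ζ0, hζL1⟩ : L1) 3 :=
    IsPrimitiveRoot.of_map_of_injective (f := algebraMap L1 Qb)
      (show IsPrimitiveRoot (algebraMap L1 Qb ⟨ζ0, hζL1⟩) 3 from hζ0)
      (algebraMap L1 Qb).injective
  have hcoreAt := Hc L1 hL1.fd hTL1 hL1.irr m hqm hζ
  obtain ⟨c, r, hcr⟩ := s36d_hes_step (↥L1) N' q (three_ne_zero : (3 : ↥L1) ≠ 0) hq hq3 hζ3 hm
    hcoreAt g1 hg1 hord hα hβ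
  have hr : r ≠ 0 := by
    rintro rfl
    rw [zero_pow hm, mul_zero] at hcr
    exact hg1 (pow_eq_zero_iff hd |>.1 hcr)
  refine ⟨algebraMap L1 Qb c, dsc_bcHom L1 Qb (modularFunctionFieldFull (N' * q * q)) r,
    by rwa [Ne, map_eq_zero], ?_⟩
  rw [← map_pow, hcr, map_mul, map_pow, dsc_bcHom_algebraMap]

/-- helper16's Kummer seam from the official core seam, Hesse cover -/
theorem s36d_keyBarAt_of_coreNFH (hq : q.Prime) (hq3 : ¬ 3 ∣ q) (H : s36h_CoreNF N' q hq3)
    (A : ValuationSubring Qb) (hA : A.LiesOverPrime q) :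
    ∃ d : ℕ, d ≠ 0 ∧ s36k_KeyBarAt (N' * q) q A d := by
  obtain ⟨d, hd, HF⟩ := s36d_coreF_of_coreNFH N' q hq hq3 H A hA
  exact ⟨d, hd, s36d_keyBarAt_of_coreF (N' * q) q hq (Dvd.intro_left N' rfl) hA HF⟩

/-- **[DESC], Hesse cover**: the official Kummer seam from the official core seam. -/
theorem s36d_keyBar_of_coreNFH (hq : q.Prime) (hq3 : ¬ 3 ∣ q) (H : s36h_CoreNF N' q hq3) :
    s36_KeyBar N' q := by
  intro P hP
  obtain ⟨d, hd, HK⟩ := s36d_keyBarAt_of_coreNFH N' q hq hq3 H P hP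
  exact ⟨d, hd, fun m hqm f hf hord hfix hα hβ => HK m hqm f hf hord hfix hα hβ⟩

end NF

end Fermat.Agent.S36
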