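/-
Project S36 (Carayol), cell [DESC], the cover passage, LEGENDRE COVER (`q` odd):
the official core seam `s36_CoreNF N' q hq2` (S36/Seams.lean) gives the core at `F`-level
`s36d_CoreF (N' q) q A d` (S36/Desc/Step.lean), hence helper16's Kummer seam and the official
`s36_KeyBar N' q`.

* `s36d_leg_step`        : the cover step over one constant field for the Legendre cover;
* `s36d_coreF_of_coreNF` : `s36_CoreNF N' q hq2 → ∀ A | q, ∃ d ≠ 0, s36d_CoreF (N' q) q A d`;
* `s36d_keyBarAt_of_coreNF`, `s36d_keyBar_of_coreNF : s36_CoreNF N' q hq2 → s36_KeyBar N' q`.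
Prefix `s36d_`.  Owner: helper28.
-/
import Mathlib
import Fermat.Agent.S36.Desc.CoverStruct
import Fermat.Agent.S36.Desc.Step
import Fermat.Agent.S36.Seams
import Fermat.Agent.SS.Descent
import Fermat.Agent.S36.PEquiv2.DegE

set_option autoImplicit false
set_option linter.unusedSectionVars false
set_option linter.unusedVariables false
set_option linter.style.haveILetI false
set_option synthInstance.maxHeartbeats 400000
set_option maxHeartbeats 1000000

noncomputable section

namespace Fermat.Agent.S36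

open ModularCurve AlgebraicCurve Module IntermediateField
open Fermat.Agent.S24 Fermat.Agent.S28 Fermat.Agent.JT3 Fermat.Agent.SS Fermat.Agent.S35

local notation "Qb" => AlgebraicClosure ℚ

section Leg

variable (L : Type) [Field L] [Algebra ℚ L] [Algebra L Qb]
  (N' q : ℕ) [NeZero N'] [NeZero q]

/-- **the cover step, Legendre cover.** -/
theorem s36d_leg_step (hq : q.Prime) (hq2 : ¬ 2 ∣ q) {m d : ℕ} (hm : m ≠ 0)
    (hcore : haveI : CharZero L := algebraRat.charZero L
      s36_CoreAt (L := L) N' q hq2 m d)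
    (g1 : laurentBaseChange L (modularFunctionFieldFull (N' * q * q))) (hg1 : g1 ≠ 0)
    (hord : ∀ w : Place L (laurentBaseChange L (modularFunctionFieldFull (N' * q * q))),
      (m : ℤ) ∣ w.ord g1)
    (hα : ∃ (a : L) (s : laurentBaseChange L (modularFunctionFieldFull (N' * q))),
      s35pe_normAlong (heckeAlphaBar L (N' * q) q) g1 =
        algebraMap L (laurentBaseChange L (modularFunctionFieldFull (N' * q))) a * s ^ m)
    (hβ : ∃ (a : L) (s : laurentBaseChange L (modularFunctionFieldFull (N' * q))),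
      s35pe_normAlong (heckeBetaBar L (N' * q) q) g1 =
        algebraMap L (laurentBaseChange L (modularFunctionFieldFull (N' * q))) a * s ^ m) :
    ∃ (c : L) (r : laurentBaseChange L (modularFunctionFieldFull (N' * q * q))),
      g1 ^ d =
        algebraMap L (laurentBaseChange L (modularFunctionFieldFull (N' * q * q))) c * r ^ m := by
  haveI : CharZero L := algebraRat.charZero L
  have hq2' : q ≠ 2 := by
    rintro rfl
    exact hq2 dvd_rfl
  refine s36d_cover_struct_step L (N' * q) q 2 (ssm_f4_level (N' * q)) hq (Dvd.intro_left N' rfl)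
    Nat.prime_two hq2' (lg_E L (N' * q)) (lg_E L (N' * q * q)) (lg_K L)
    (ssm_al_E_le L (N' * q) q) (ssm_al_E_beta_le L (N' * q) q hq2) rfl rfl
    ((Dvd.intro_left 2 rfl).trans (Nat.dvd_lcm_left 4 (2 * (N' * q))))
    (s36pe_dvd_f4_level (N' * q) q (Dvd.intro_left N' rfl))
    (ssm_f4 L (N' * q)) (ssm_al_E_eq L (N' * q) q hq2) hm ?_ ?_ g1 hg1 hord hα hβ
  · -- root descent
    have h := ssd_leg_rootDescent (N' * q * q) L hm
    intro f hf c g hg hfg
    rw [ssd_lg_E_eq L (N' * q * q)] at hg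
    exact h f hf c g hg hfg
  · -- the core
    intro g hg hv h1 h2
    exact hcore g ⟨hg, hv, h1, h2⟩

end Leg

section NF

variable (N' q : ℕ) [NeZero N'] [NeZero q]

/-- **the core at `F`-level from the official core seam, Legendre cover.** -/
theorem s36d_coreF_of_coreNF (hq : q.Prime) (hq2 : ¬ 2 ∣ q) (H : s36_CoreNF N' q hq2)
    (A : ValuationSubring Qb) (hA : A.LiesOverPrime q) :
    ∃ d : ℕ, d ≠ 0 ∧ s36d_CoreF (N' * q) q A d := by
  obtain ⟨d, hd, T, hT, Hc⟩ := H A hA
  refine ⟨d, hd, T, hT, fun L1 hL1 hTL1 m hqm hζ g1 hg1 hord hα hβ => ?_⟩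
  have hm : m ≠ 0 := by
    rintro rfl
    exact hqm (dvd_zero q)
  have hcoreAt := Hc L1 hL1.fd hTL1 hL1.irr m hqm hζ
  obtain ⟨c, r, hcr⟩ := s36d_leg_step (↥L1) N' q hq hq2 hm hcoreAt g1 hg1 hord hα hβ
  have hr : r ≠ 0 := by
    rintro rfl
    rw [zero_pow hm, mul_zero] at hcr
    exact hg1 (pow_eq_zero_iff hd |>.1 hcr)
  refine ⟨algebraMap L1 Qb c, dsc_bcHom L1 Qb (modularFunctionFieldFull (N' * q * q)) r,
    by rwa [Ne, map_eq_zero], ?_⟩
  rw [← map_pow, hcr, map_mul, map_pow, dsc_bcHom_algebraMap]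

/-- helper16's Kummer seam from the official core seam, Legendre cover -/
theorem s36d_keyBarAt_of_coreNF (hq : q.Prime) (hq2 : ¬ 2 ∣ q) (H : s36_CoreNF N' q hq2)
    (A : ValuationSubring Qb) (hA : A.LiesOverPrime q) :
    ∃ d : ℕ, d ≠ 0 ∧ s36k_KeyBarAt (N' * q) q A d := by
  obtain ⟨d, hd, HF⟩ := s36d_coreF_of_coreNF N' q hq hq2 H A hA
  exact ⟨d, hd, s36d_keyBarAt_of_coreF (N' * q) q hq (Dvd.intro_left N' rfl) hA HF⟩

/-- **[DESC], Legendre cover**: the official Kummer seam from the official core seam. -/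
theorem s36d_keyBar_of_coreNF (hq : q.Prime) (hq2 : ¬ 2 ∣ q) (H : s36_CoreNF N' q hq2) :
    s36_KeyBar N' q := by
  intro P hP
  obtain ⟨d, hd, HK⟩ := s36d_keyBarAt_of_coreNF N' q hq hq2 H P hP
  exact ⟨d, hd, fun m hqm f hf hord hfix hα hβ => HK m hqm f hf hord hfix hα hβ⟩

end NF

end Fermat.Agent.S36
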