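/-
Project S36 (Carayol), cell [DESC], final packaging: the frozen statement of S36 from node E, S18
and the two OFFICIAL core seams of S36/Seams.lean,
`s36_CoreNF N' q hq2` (Legendre cover, `q` odd) and `s36h_CoreNF N' 2 _` (Hesse cover, `q = 2`).

* `s36d_CoreNFOdd`, `s36d_CoreNFTwo` : the two core seams at every level;
* `s36d_coreFAll_of_coreNF`  : they give `s36d_CoreFAll` (S36/Desc.lean);
* `s36d_keyBar_all`          : they give the official `s36_KeyBar N' q` for every prime `q ∤ N'`;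
* `s36d_result_of_coreNF`    : the frozen statement of S36 verbatim.
Prefix `s36d_`.  Owner: helper28.
-/
import Mathlib
import Fermat.Agent.S36.Desc
import Fermat.Agent.S36.Desc.CoverLeg
import Fermat.Agent.S36.Desc.CoverHes

set_option autoImplicit false
set_option linter.unusedSectionVars false
set_option linter.unusedVariables false
set_option linter.overlappingInstances false
set_option synthInstance.maxHeartbeats 400000
set_option maxHeartbeats 1000000

noncomputable section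

namespace Fermat.Agent.S36

open IsLocalRing TensorProduct Polynomial Fermat.Agent.JT3 Fermat.Agent.S35 ModularCurve
open CuspForm CuspForm.IsNewform

local notation "Qb" => AlgebraicClosure ℚ

theorem s36d_not_three_dvd_two : ¬ 3 ∣ 2 := by norm_num

/-- the Legendre core seam at every level pair `(N' q², N' q)`, `q` an odd prime, `q ∤ N'` -/
def s36d_CoreNFOdd : Prop :=
  ∀ (N' q : ℕ) [NeZero N'] [NeZero q], q.Prime → ∀ hq2 : ¬ 2 ∣ q, ¬ q ∣ N' → s36_CoreNF N' q hq2

/-- the Hesse core seam at every level pair `(4 N', 2 N')`, `N'` odd -/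
def s36d_CoreNFTwo : Prop :=
  ∀ (N' : ℕ) [NeZero N'], ¬ 2 ∣ N' → s36h_CoreNF N' 2 s36d_not_three_dvd_two

/-- the official Kummer seam at every level from the two core seams -/
theorem s36d_keyBar_all (hOdd : s36d_CoreNFOdd) (hTwo : s36d_CoreNFTwo)
    (N' q : ℕ) [NeZero N'] [NeZero q] (hq : q.Prime) (hqN' : ¬ q ∣ N') : s36_KeyBar N' q := by
  by_cases hq2 : 2 ∣ q
  · obtain rfl : 2 = q := (Nat.prime_dvd_prime_iff_eq Nat.prime_two hq).1 hq2
    exact s36d_keyBar_of_coreNFH N' 2 hq s36d_not_three_dvd_two (hTwo N' hqN')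
  · exact s36d_keyBar_of_coreNF N' q hq hq2 (hOdd N' q hq hq2 hqN')

/-- the core at `F`-level at every level from the two core seams -/
theorem s36d_coreFAll_of_coreNF (hOdd : s36d_CoreNFOdd) (hTwo : s36d_CoreNFTwo) :
    s36d_CoreFAll := by
  intro N q _ _ hq hqN
  obtain ⟨A, hA⟩ := smos_exists_place q hq
  refine ⟨A, hA, ?_⟩
  by_cases hq2 : 2 ∣ q
  · obtain rfl : 2 = q := (Nat.prime_dvd_prime_iff_eq Nat.prime_two hq).1 hq2
    exact s36d_coreF_of_coreNFH N 2 hq s36d_not_three_dvd_two (hTwo N hqN) A hA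
  · exact s36d_coreF_of_coreNF N q hq hq2 (hOdd N q hq hq2 hqN) A hA

/-- **S36 from node E, S18 and the two official core seams** (the frozen statement verbatim). -/
theorem s36d_result_of_coreNF (hE : tjp_NodeE) (hS18 : tjp_S18) (hOdd : s36d_CoreNFOdd)
    (hTwo : s36d_CoreNFTwo)
    {M : ℕ} [NeZero M] {g : CuspForm (CongruenceSubgroup.Gamma0 M) 2} (hg : g.IsNewform)
    (lam : ℕ) [Fact lam.Prime]
    (S : Finset ℕ)
    (O' : Type) [CommRing O'] [IsDomain O'] [IsDiscreteValuationRing O']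
    [IsAdicComplete (IsLocalRing.maximalIdeal O') O'] [Finite (IsLocalRing.ResidueField O')]
    [CharZero O'] (hlamO' : (lam : O') ∈ IsLocalRing.maximalIdeal O')
    (hlam2 : lam ≠ 2)
    (chig : CuspForm.heckeAlgebra M 2 (↑S : Set ℕ) →+* ℂ)
    (hchig : ∀ (ℓ : ℕ) (hℓ : ℓ.Prime) (hℓM : ¬ ℓ ∣ M) (hℓS : ℓ ∉ (↑S : Set ℕ)),
      chig (CuspForm.heckeAlgebra.T hℓ hℓM hℓS) = ModularFormClass.qCoeff g ℓ)
    (iota : chig.range →+* O')
    (hlamS : lam ∈ S) (hMS : ∀ q : ℕ, q.Prime → q ∣ M → q ∈ S)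
    (hres : ∀ (O'' : Type) [CommRing O''] [IsDomain O''] [IsDiscreteValuationRing O'']
      [IsAdicComplete (IsLocalRing.maximalIdeal O'') O''] [Finite (IsLocalRing.ResidueField O'')] [CharZero O'']
      [Algebra O' O''] [Module.Finite O' O''] [IsLocalHom (algebraMap O' O'')],
      Function.Injective (algebraMap O' O'') → ∀ (ρ : GaloisRepAdic O''),
      (∀ (ℓ : ℕ) (hℓ : ℓ.Prime) (hℓlam : ℓ ≠ lam) (hℓM : ¬ ℓ ∣ M) (hℓS : ℓ ∉ (↑S : Set ℕ)),
        ∀ A : ValuationSubring (AlgebraicClosure ℚ), A.LiesOverPrime ℓ →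
          ∀ σ : AlgebraicClosure ℚ ≃ₐ[ℚ] AlgebraicClosure ℚ, A.IsFrobeniusAt σ ℓ →
            LinearMap.charpoly (ρ.ρ σ) =
              X ^ 2 - C (algebraMap O' O'' ((iota.comp chig.rangeRestrict) (CuspForm.heckeAlgebra.T hℓ hℓM hℓS))) * X
                + C ((ℓ : O'')))
      → ρ.residual.IsAbsolutelyIrreducible ∧ ρ.residual.IsOdd)
    :
    ∃ (O'' : Type) (_ : CommRing O'') (_ : IsDomain O'') (_ : IsDiscreteValuationRing O'')
      (_ : IsAdicComplete (IsLocalRing.maximalIdeal O'') O'') (_ : Finite (IsLocalRing.ResidueField O''))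
      (_ : CharZero O'') (_ : Algebra O' O'') (_ : Module.Finite O' O'') (_ : IsLocalHom (algebraMap O' O'')),
      Function.Injective (algebraMap O' O'') ∧
      ∃ ρ : GaloisRepAdic O'',
        (∀ (ℓ : ℕ) (hℓ : ℓ.Prime) (hℓM : ¬ ℓ ∣ M) (hℓS : ℓ ∉ (↑S : Set ℕ)),
          ∀ A : ValuationSubring (AlgebraicClosure ℚ), A.LiesOverPrime ℓ →
            ∀ σ : AlgebraicClosure ℚ ≃ₐ[ℚ] AlgebraicClosure ℚ, A.IsFrobeniusAt σ ℓ →
              LinearMap.charpoly (ρ.ρ σ) =
                X ^ 2 - C (algebraMap O' O'' ((iota.comp chig.rangeRestrict) (CuspForm.heckeAlgebra.T hℓ hℓM hℓS))) * X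
                  + C ((ℓ : O''))) ∧
        (∀ q : ℕ, q.Prime → q ≠ lam → M.factorization q = 2 → ¬ ρ.IsUnipotentOnInertiaAt q) :=
  s36d_result_of_coreF hE hS18 (s36d_coreFAll_of_coreNF hOdd hTwo) hg lam S O' hlamO' hlam2 chig
    hchig iota hlamS hMS hres

end Fermat.Agent.S36
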